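import Fermat.Agent.S36R.Deliver
import Fermat.Agent.S36R.Unit.ConcInc
import Fermat.Agent.S36R.Unit.ConcRes
import Fermat.Agent.S36R.KS.Prin0

/-!
# S36, route R: the field `p₀` (`Rest S`), Theorem X
-/

set_option autoImplicit false
set_option linter.unusedSectionVars false

noncomputable section

namespace Fermat.Agent.S36R

open AlgebraicCurve ModularCurve Fermat.Agent.S24 Fermat.Agent.GAL Fermat.Agent.S36R.NormC
  Fermat.Agent.S36R.Bridge Fermat.Agent.DR.Conc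

variable {A : ValuationSubring Kbar} {M q : ℕ} [NeZero M] [NeZero q]

/-- the affine chart. -/
theorem NormC.Setup.chart₀ (S : Setup A M q) : Inj.Chart (q : O0 A) S.W S.j (RR (O0 A) S.j) :=
  chart_j (q : O0 A) S.W (Val.O_mem S) (Val.j_mem S) (Val.sat₀ S)

theorem rest (S : Setup A M q) (hneat : 4 ∣ M ∨ 9 ∣ M) : Rest S := by
  obtain ⟨Φ, U, G, m, c, hB⟩ := S28.statementB_iff.mp (S28.statementB S28.statementA) q S.hq
  have : Fact q.Prime := ⟨S.hq⟩
  have : CharP (IsLocalRing.ResidueField ↥A) q := Hecke.charP_residueField A S.hq S.hA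
  refine ⟨fun 𝔫 _ hq𝔫 => ?_, fun 𝔫 h𝔫 hq𝔫 hthru => ?_⟩
  · refine Unit.Conc.inc_R0_lvl S hB (Val.vert S) S.chart₀ (Val.eW0 S) (Val.eW2 S) 𝔫 fun x hx => ?_
    have : x = (q : RR (O0 A) S.j) := Subtype.ext (by rw [hx, map_natCast]; simp)
    rw [this]
    exact hq𝔫
  · exact KS.prin_mid A M q (i := 1) S.hM hneat S.hζ (S.hζ.ne_zero S.hq.ne_zero) m S.chart₀ S.e1
      (AA.rho (AA.g1 (AA.resOK S))) (AA.KS_hrho (AA.resOK S))
      (AA.KS_hfull S.hM (S.goodRed hneat) (AA.resOK S))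
      (AA.KS_hlift S.hM (S.goodRed hneat) (AA.resOK S))
      (Unit.Conc.psiB_mem S hB S.chart₀) (Unit.Conc.isCut_psiB S hB (Val.vert S))
      (Unit.Conc.e1_psiB_eq S hB) 𝔫 h𝔫 hthru

/-- **Theorem X** (route R). -/
theorem theoremX : Fermat.Agent.S36.Glue.TheoremX :=
  theoremX_of_rest fun _ _ _ _ hneat _ S => rest S hneat

end Fermat.Agent.S36R
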