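import Fermat.Agent.S36R.Inj.FormD
import Fermat.Prelude.Def_AlgebraicCurve_DivisorClassGroup

/-!
# S36, route R: the contracts between the blocks (abstract form)

Everything which the abstract part of route R (local factoriality, vertical exponents, roots on the
components, gluing at the triple points, `INJ_reg`) consumes from the concrete blocks, as ONE
structure of data `Lvl` and two `Prop`-valued structures `Lvl.Good` (facts which do not depend on a
chart) and `Lvl.ChartOK` (facts about one chart).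

Dictionary (application): `O = O0 A`, `K = K0 A`, `F = FF K (M * q * q)`, `FA = FF K (M * q)`,
`al, be = α, β : FA → F`, `NA, NB` the norms along `α`, `β`,
`W 0, W 1, W 2 = W20, W11, W02` (Gauss valuations of the expansions at `∞`, at the middle cusps, at `0`),
`V 0, V 1 = V10, V01` (Gauss valuations of `FA` at `∞`, `0`), `c = j`,
`R₀, R₁` = integral closures of `O[j]`, `O[1/j]` in `F`.
-/

set_option autoImplicit false

namespace Fermat.Agent.S36R

open AlgebraicCurve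

variable {F : Type*} [Field F]

/-- `x ≡ y` modulo the maximal ideal of `V`. -/
def Cg (V : ValuationSubring F) (x y : F) : Prop := V.valuation (x - y) < 1

/-- `x` is a unit of `V`. -/
def IsU (V : ValuationSubring F) (x : F) : Prop := V.valuation x = 1

variable (O K F FA : Type*) [CommRing O] [Field K] [Field F] [Field FA] [Algebra K F] [Algebra K FA]

/-- The data of route R (two levels, two degeneracy maps, their norms, the vertical valuation rings). -/
structure Lvl where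
  /-- `α` -/
  al : FA →ₐ[K] F
  /-- `β` -/
  be : FA →ₐ[K] F
  /-- the norm along `α` -/
  NA : F →* FA
  /-- the norm along `β` -/
  NB : F →* FA
  /-- `W20, W11, W02` -/
  W : Fin 3 → ValuationSubring F
  /-- `V10, V01` -/
  V : Fin 2 → ValuationSubring FA

variable {K F FA}
variable [Algebra O F]

/-- The chart independent contracts.  `q` the residue characteristic. -/
structure Lvl.Good (D : Lvl K F FA) (q : ℕ) : Prop where
  /-- (VAL) `q` is a non unit of the `W i`, `e(W i) ≤ q - 1`. -/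
  vert : Inj.Vert (q : O) D.W (q - 1)
  /-- (VAL) the `W i` are pairwise incomparable. -/
  incomp : ∀ i j, i ≠ j → ¬ D.W i ≤ D.W j
  /-- (VAL) value groups. -/
  eW0 : ∀ z : F, z ≠ 0 → ∃ x : ℤ, IsU (D.W 0) (z / (q : F) ^ x)
  eW1 : ∀ z : F, z ≠ 0 → ∃ x : ℤ, IsU (D.W 1) (z ^ (q - 1) / (q : F) ^ x)
  eW2 : ∀ z : F, z ≠ 0 → ∃ x : ℤ, IsU (D.W 2) (z / (q : F) ^ x)
  eV : ∀ (i : Fin 2) (z : FA), z ≠ 0 → ∃ x : ℤ, IsU (D.V i) (z / (q : FA) ^ x)
  qV : ∀ i : Fin 2, (D.V i).valuation (q : FA) < 1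
  /-- (NORM-C) restrictions of the `W i` along `α`, `β`. -/
  al0 : (D.W 0).comap (D.al : FA →+* F) = D.V 0
  al1 : (D.W 1).comap (D.al : FA →+* F) = D.V 0
  al2 : (D.W 2).comap (D.al : FA →+* F) = D.V 1
  be0 : (D.W 0).comap (D.be : FA →+* F) = D.V 0
  be1 : (D.W 1).comap (D.be : FA →+* F) = D.V 1
  be2 : (D.W 2).comap (D.be : FA →+* F) = D.V 1
  /-- (NORM-C) norms of constants. -/
  NA_const : ∀ a : K, D.NA (algebraMap K F a) = algebraMap K FA (a ^ q)
  NB_const : ∀ a : K, D.NB (algebraMap K F a) = algebraMap K FA (a ^ q)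
  /-- (NORM-C) reduction of norms. -/
  NRA1 : ∀ (z : F) (w₁ w₂ : FA), z ∈ D.W 0 → z ∈ D.W 1 → Cg (D.W 0) z (D.al w₁) →
    Cg (D.W 1) z (D.al w₂) → Cg (D.V 0) (D.NA z) (w₁ * w₂ ^ (q - 1))
  NRA2 : ∀ z : F, z ∈ D.W 2 → Cg (D.W 2) (D.al (D.NA z)) (z ^ q)
  NRB1 : ∀ (z : F) (w₁ w₂ : FA), z ∈ D.W 2 → z ∈ D.W 1 → Cg (D.W 2) z (D.be w₁) →
    Cg (D.W 1) z (D.be w₂) → Cg (D.V 1) (D.NB z) (w₁ * w₂ ^ (q - 1))
  NRB2 : ∀ z : F, z ∈ D.W 0 → Cg (D.W 0) (D.be (D.NB z)) (z ^ q)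
  /-- (NORM-C) valuations of norms. -/
  NVA0 : ∀ (z : F) (x y : ℤ), IsU (D.W 0) (z / (q : F) ^ x) → IsU (D.W 1) (z ^ (q - 1) / (q : F) ^ y) →
    IsU (D.V 0) (D.NA z / (q : FA) ^ (x + y))
  NVA1 : ∀ (z : F) (x : ℤ), IsU (D.W 2) (z / (q : F) ^ x) → IsU (D.V 1) (D.NA z / (q : FA) ^ (q * x))
  NVB1 : ∀ (z : F) (x y : ℤ), IsU (D.W 2) (z / (q : F) ^ x) → IsU (D.W 1) (z ^ (q - 1) / (q : F) ^ y) →
    IsU (D.V 1) (D.NB z / (q : FA) ^ (x + y))
  NVB0 : ∀ (z : F) (x : ℤ), IsU (D.W 0) (z / (q : F) ^ x) → IsU (D.V 0) (D.NB z / (q : FA) ^ (q * x))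

/-- The contracts for one chart `R` (with coordinate `c`); required for `(c, R₀)` and `(c⁻¹, R₁)`. -/
structure Lvl.ChartOK (D : Lvl K F FA) (q : ℕ) (c : F) (R : Subring F) : Prop where
  /-- (VAL + AA/Bridge) -/
  chart : Inj.Chart (q : O) D.W c R
  /-- (AA) -/
  noeth : IsNoetherianRing R

omit [CommRing O] [Algebra O F] in
/-- The contracts at one closed point `𝔫` of the special fibre of the chart `R`; required at ALL maximal ideals
`𝔫 ∋ q` of `R₀` and at the CUSPIDAL maximal ideals (`q, c⁻¹ ∈ 𝔫`) of `R₁`. -/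
structure Lvl.PointOK (D : Lvl K F FA) (R : Subring F) (𝔫 : Ideal R) [𝔫.IsPrime] : Prop where
  /-- (UNIT) incidence: `𝔫` lies on exactly one component or on all three. -/
  inc : (∃! i, Inj.Thru D.W 𝔫 i) ∨ ∀ i, Inj.Thru D.W 𝔫 i
  /-- (UNIT + KS) the middle component is locally principal. -/
  prin : Inj.Thru D.W 𝔫 1 → ∃ b ∈ Inj.locAt 𝔫, b ≠ 0 ∧ (D.W 1).valuation b < 1 ∧
      ∀ z ∈ Inj.locAt 𝔫, (D.W 1).valuation z < 1 → z / b ∈ Inj.locAt 𝔫
  /-- (AA) the branches are normal: the image of `R_𝔫` in the residue field of `W i` is a valuation ring. -/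
  vr : ∀ i, Inj.Thru D.W 𝔫 i → ∀ z ∈ D.W i,
    (∃ a ∈ Inj.locAt 𝔫, Cg (D.W i) z a) ∨ (∃ a ∈ Inj.locAt 𝔫, Cg (D.W i) z⁻¹ a)

omit [CommRing O] [Algebra O F] in
/-- The contracts used at the triple points; required for `R₀` ONLY (they are false on `R₁`). -/
structure Lvl.TripleOK (D : Lvl K F FA) (R : Subring F) : Prop where
  /-- (AA) `R / p i` is covered by the functions of the lower level. -/
  resA : ∀ i : Fin 3, i ≠ 2 → ∀ x : R, ∃ w : FA, D.al w ∈ R ∧ Cg (D.W i) x (D.al w)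
  resB : ∀ i : Fin 3, i ≠ 0 → ∀ x : R, ∃ w : FA, D.be w ∈ R ∧ Cg (D.W i) x (D.be w)
  /-- (NORM-C) norms of integral elements are integral. -/
  intA : ∀ s ∈ R, D.al (D.NA s) ∈ R
  intB : ∀ s ∈ R, D.be (D.NB s) ∈ R
  /-- (VAL) `W i` is the local ring of `R` at its centre.  (`Local.sep_of_loc`: the centres are not contained in each other.) -/
  loc : ∀ i, ∀ z ∈ D.W i, ∃ r s : R, (D.W i).valuation (s : F) = 1 ∧ z * s = r

end Fermat.Agent.S36R
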