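import Fermat.Agent.S36R.Final
import Fermat.Agent.S36R.Val.Deliver
import Fermat.Agent.S36R.Val.Small
import Fermat.Agent.S36R.KS.CuspInst
import Fermat.Agent.GAL.Igusa.Final

/-!
# S36, route R: assembly of `Deliver S`

`Rest S` = what is still missing: the field `p₀` (incidence and principality at the closed points of the special fibre of `R₀`).
Everything else (VAL, AA, NORM-C, cusps of `R₁`) is plugged in.
-/

set_option autoImplicit false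
set_option linter.unusedSectionVars false

noncomputable section

namespace Fermat.Agent.S36R

open AlgebraicCurve ModularCurve Fermat.Agent.S24 Fermat.Agent.GAL Fermat.Agent.S36R.NormC
  Fermat.Agent.S36R.Bridge Fermat.Agent.DR.Conc

variable {A : ValuationSubring Kbar} {M q : ℕ} [NeZero M] [NeZero q]

theorem NormC.Setup.hM (S : Setup A M q) : ((M : ℕ) : IsLocalRing.ResidueField ↥A) ≠ 0 :=
  Hecke.natCast_residue_ne_zero A S.hq S.hA S.hqM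

theorem NormC.Setup.goodRed (S : Setup A M q) (hneat : 4 ∣ M ∨ 9 ∣ M) : GoodRed A M :=
  goodRed_of_neat A M S.hM Igusa.cuspUpper Igusa.cuspLower hneat

/-- **`Lvl.Good` for the concrete data** (VAL + NORM-C; used by the routes R and RC). -/
theorem NormC.Setup.good (S : Setup A M q) : S.lvl.Good (O0 A) q where
  vert := Val.vert S
  incomp := Val.incomp S
  eW0 := Val.eW0 S
  eW1 := Val.eW1 S
  eW2 := Val.eW2 S
  eV := S.eV
  qV := S.qV
  al0 := S.al0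
  al1 := S.al1
  al2 := S.al2
  be0 := S.be0
  be1 := S.be1
  be2 := S.be2
  NA_const := S.NA_const
  NB_const := S.NB_const
  NRA1 := S.NRA1
  NRA2 := S.NRA2
  NRB1 := S.NRB1
  NRB2 := S.NRB2
  NVA0 := S.NVA0
  NVA1 := S.NVA1
  NVB1 := S.NVB1
  NVB0 := S.NVB0

/-- the chart at infinity. -/
theorem NormC.Setup.chart₁ (S : Setup A M q) :
    Inj.Chart (q : O0 A) S.W S.j⁻¹ (RR (O0 A) S.j⁻¹) :=
  chart_j_inv (q : O0 A) S.W (Val.O_mem S) (Val.j_inv_mem S) (Val.sat₁ S)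

/-- What is still missing for route R. -/
structure Rest (S : Setup A M q) : Prop where
  /-- UNIT -/
  inc₀ : ∀ (𝔫 : Ideal S.R₀) [𝔫.IsMaximal], (q : S.R₀) ∈ 𝔫 →
    (∃! i, Inj.Thru S.lvl.W 𝔫 i) ∨ ∀ i, Inj.Thru S.lvl.W 𝔫 i
  /-- UNIT + KS -/
  prin₀ : ∀ (𝔫 : Ideal S.R₀) [𝔫.IsMaximal], (q : S.R₀) ∈ 𝔫 → Inj.Thru S.lvl.W 𝔫 1 →
    ∃ b ∈ Inj.locAt 𝔫, b ≠ 0 ∧ (S.lvl.W 1).valuation b < 1 ∧
      ∀ z ∈ Inj.locAt 𝔫, (S.lvl.W 1).valuation z < 1 → z / b ∈ Inj.locAt 𝔫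

/-- **Assembly** from the field `p₀`. -/
theorem deliver_of_p₀ (S : Setup A M q) (hneat : 4 ∣ M ∨ 9 ∣ M)
    (p₀ : ∀ (𝔫 : Ideal S.R₀) [𝔫.IsMaximal], (q : S.R₀) ∈ 𝔫 → S.lvl.PointOK S.R₀ 𝔫) :
    Deliver S where
  vert := Val.vert S
  incomp := Val.incomp S
  eW0 := Val.eW0 S
  eW1 := Val.eW1 S
  eW2 := Val.eW2 S
  eV := S.eV
  qV := S.qV
  j_mem := Val.j_mem S
  j_inv_mem := Val.j_inv_mem S
  sat₀ := Val.sat₀ S
  sat₁ := Val.sat₁ S
  noeth₀ := AA.noeth_R0 S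
  noeth₁ := AA.noeth_R1 S
  loc := Val.loc S
  resA := AA.resA' S (S.goodRed hneat)
  resB := AA.resB' S (S.goodRed hneat)
  p₀ := p₀
  p₁ 𝔫 _ hq𝔫 hc𝔫 :=
    KS.deliver_p₁ S (Val.vert S) S.chart₁ S.hM (S.goodRed hneat) (AA.resOK S) 𝔫 hq𝔫 hc𝔫

/-- **Assembly.** -/
theorem deliver_of_rest (S : Setup A M q) (hneat : 4 ∣ M ∨ 9 ∣ M) (h : Rest S) : Deliver S :=
  deliver_of_p₀ S hneat fun 𝔫 _ hq𝔫 =>
    { inc := h.inc₀ 𝔫 hq𝔫
      prin := h.prin₀ 𝔫 hq𝔫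
      vr := AA.vr₀ S (S.goodRed hneat) 𝔫 }

/-- **Theorem X** from `Rest S` at the neat levels. -/
theorem theoremX_of_rest
    (H : ∀ (M q : ℕ) [NeZero M] [NeZero q], (4 ∣ M ∨ 9 ∣ M) →
      ∀ (A : ValuationSubring Kbar) (S : Setup A M q), Rest S) :
    Fermat.Agent.S36.Glue.TheoremX :=
  theoremX_of_deliver fun M q _ _ hneat A S => deliver_of_rest S hneat (H M q hneat A S)

end Fermat.Agent.S36R
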