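import Fermat.Agent.S36R.Main

/-!
# S36, route R: Theorem X from `Deliver S` at the neat levels

`S36.lean` is then `Glue.s36_of_theoremX (theoremX_of_deliver H) hg lam S O' hlamO' hlam2 chig hchig iota hlamS hMS`.
-/

set_option autoImplicit false

namespace Fermat.Agent.S36R

open Fermat.Agent.S24 Fermat.Agent.GAL Fermat.Agent.S36R.NormC

/-- the exponent of route R. -/
def dR (q : ℕ) : ℕ := (q + 1) * (q - 1) * ((q + 1) * (q - 1))

theorem dR_ne_zero {q : ℕ} (hq : q.Prime) : dR q ≠ 0 := by
  have h2 := hq.two_le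
  have h1 : q - 1 ≠ 0 := by omega
  have h3 : (q + 1) * (q - 1) ≠ 0 := mul_ne_zero (by omega) h1
  exact mul_ne_zero h3 h3

/-- **Theorem X** from the deliverables of route R at the neat levels. -/
theorem theoremX_of_deliver
    (H : ∀ (M q : ℕ) [NeZero M] [NeZero q], (4 ∣ M ∨ 9 ∣ M) →
      ∀ (A : ValuationSubring Kbar) (S : Setup A M q), Deliver S) :
    Fermat.Agent.S36.Glue.TheoremX :=
  Top.theoremX_of_concl (fun _ q => dR q) (fun _ _ hq => dR_ne_zero hq)
    (fun M q _ _ hq hqM hneat A hA => by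
      obtain ⟨S⟩ := Top.nonempty_setup (A := A) (M := M) hq hqM hA
      exact ⟨S, concl_of_deliver S (H M q hneat A S)⟩)

end Fermat.Agent.S36R
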