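import Fermat.Agent.S36R.Top.Shared
import Fermat.Agent.S36R.End.X
import Fermat.Agent.S36R.NormC.Int
import Fermat.Agent.S36R.NormC.ConstPow
import Fermat.Agent.S36R.NormC.Good
import Fermat.Agent.S36R.Bridge.Main
import Fermat.Agent.S36R.AA.Old

/-!
# S36, route R: the final assembly

`Deliver S` lists EVERYTHING which is still consumed from the concrete blocks for a setup `S : NormC.Setup A M q`
(the fields of `Lvl.Good` which come from NORM-C are already plugged in).  `concl_of_deliver` deduces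
`Top.Concl S d`, `d = ((q+1)(q-1))²`, i.e. (with `Top.theoremX_of_concl`) Theorem X.
-/

set_option autoImplicit false
set_option linter.unusedSectionVars false

noncomputable section

namespace Fermat.Agent.S36R

open AlgebraicCurve ModularCurve Fermat.Agent.S24 Fermat.Agent.GAL Fermat.Agent.S36R.NormC
  Fermat.Agent.S36R.Bridge

variable {A : ValuationSubring Kbar} {M q : ℕ} [NeZero M] [NeZero q]

/-- the chart `j ≠ ∞`. -/
abbrev NormC.Setup.R₀ (S : Setup A M q) : Subring S.F := RR (O0 A) S.j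

/-- the chart `j ≠ 0`. -/
abbrev NormC.Setup.R₁ (S : Setup A M q) : Subring S.F := RR (O0 A) S.j⁻¹

/-- What remains to be delivered by the concrete blocks. -/
structure Deliver (S : Setup A M q) : Prop where
  /-- VAL (`disc`, `pi_lt`, `pi_ne`) -/
  vert : Inj.Vert (q : O0 A) S.W (q - 1)
  /-- VAL -/
  incomp : ∀ i j, i ≠ j → ¬ S.W i ≤ S.W j
  /-- VAL / FACT D -/
  eW0 : ∀ z : S.F, z ≠ 0 → ∃ x : ℤ, IsU (S.W 0) (z / (q : S.F) ^ x)
  eW1 : ∀ z : S.F, z ≠ 0 → ∃ x : ℤ, IsU (S.W 1) (z ^ (q - 1) / (q : S.F) ^ x)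
  eW2 : ∀ z : S.F, z ≠ 0 → ∃ x : ℤ, IsU (S.W 2) (z / (q : S.F) ^ x)
  eV : ∀ (i : Fin 2) (z : S.FA), z ≠ 0 → ∃ x : ℤ, IsU (S.V i) (z / (q : S.FA) ^ x)
  qV : ∀ i : Fin 2, (S.V i).valuation (q : S.FA) < 1
  /-- VAL: `R = R[1/q] ∩ ⋂ W i` on both charts, `j^{±1} ∈ W i`. -/
  j_mem : ∀ i, S.j ∈ S.W i
  j_inv_mem : ∀ i, S.j⁻¹ ∈ S.W i
  sat₀ : ∀ z : S.F, algebraMap (O0 A) S.F (q : O0 A) * z ∈ S.R₀ → (∀ i, z ∈ S.W i) → z ∈ S.R₀
  sat₁ : ∀ z : S.F, algebraMap (O0 A) S.F (q : O0 A) * z ∈ S.R₁ → (∀ i, z ∈ S.W i) → z ∈ S.R₁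
  /-- AA -/
  noeth₀ : IsNoetherianRing S.R₀
  noeth₁ : IsNoetherianRing S.R₁
  /-- VAL -/
  loc : ∀ i, ∀ z ∈ S.W i, ∃ r s : S.R₀, (S.W i).valuation (s : S.F) = 1 ∧ z * s = r
  /-- AA -/
  resA : ∀ i : Fin 3, i ≠ 2 → ∀ x : S.R₀, ∃ w : S.FA, S.lvl.al w ∈ S.R₀ ∧ Cg (S.W i) x (S.lvl.al w)
  resB : ∀ i : Fin 3, i ≠ 0 → ∀ x : S.R₀, ∃ w : S.FA, S.lvl.be w ∈ S.R₀ ∧ Cg (S.W i) x (S.lvl.be w)
  /-- UNIT (`inc`), KS (`prin`), AA (`vr`) -/
  p₀ : ∀ (𝔫 : Ideal S.R₀) [𝔫.IsMaximal], (q : S.R₀) ∈ 𝔫 → S.lvl.PointOK S.R₀ 𝔫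
  /-- UNIT-CUSP (`inc`, `prin`, uniqueness), AA (`vr`) -/
  p₁ : ∀ (𝔫 : Ideal S.R₁) [𝔫.IsMaximal], (q : S.R₁) ∈ 𝔫 →
    (∀ x : S.R₁, (x : S.F) = S.j⁻¹ → x ∈ 𝔫) → S.lvl.PointOK S.R₁ 𝔫 ∧ ∃! i, Inj.Thru S.lvl.W 𝔫 i

namespace Deliver

variable {S : Setup A M q} (h : Deliver S)

include h

theorem good : S.lvl.Good (O0 A) q where
  vert := h.vert
  incomp := h.incomp
  eW0 := h.eW0
  eW1 := h.eW1
  eW2 := h.eW2
  eV := h.eV
  qV := h.qV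
  al0 := S.al0
  al1 := S.al1
  al2 := S.al2
  be0 := S.be0
  be1 := S.be1
  be2 := S.be2
  NA_const := S.NA_const
  NB_const := S.NB_const
  NRA1 := S.NRA1
  NRA2 := S.NRA2
  NRB1 := S.NRB1
  NRB2 := S.NRB2
  NVA0 := S.NVA0
  NVA1 := S.NVA1
  NVB1 := S.NVB1
  NVB0 := S.NVB0

omit h in
theorem O_mem (a : O0 A) (i : Fin 3) : algebraMap (O0 A) S.F a ∈ S.W i := by
  have hC : HahnSeries.C (((a : K0 A) : Kbar)) ∈ Gauss.gRing A := (Gauss.C_mem_gRing_iff A _).2 a.2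
  fin_cases i
  · show S.e0 (algebraMap (K0 A) S.F (a : K0 A)) ∈ Gauss.gRing A
    rw [S.e0_const]; exact hC
  · show S.e1 (algebraMap (K0 A) S.F (a : K0 A)) ∈ Gauss.gRing A
    rw [S.e1_const]; exact hC
  · show S.e2 (algebraMap (K0 A) S.F (a : K0 A)) ∈ Gauss.gRing A
    rw [S.e2_const]; exact hC

theorem chart₀ : S.lvl.ChartOK (O0 A) q S.j S.R₀ where
  chart := chart_j (q : O0 A) S.W O_mem h.j_mem h.sat₀
  noeth := h.noeth₀

theorem chart₁ : S.lvl.ChartOK (O0 A) q S.j⁻¹ S.R₁ where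
  chart := chart_j_inv (q : O0 A) S.W O_mem h.j_inv_mem h.sat₁
  noeth := h.noeth₁

theorem triple : S.lvl.TripleOK S.R₀ where
  resA := h.resA
  resB := h.resB
  intA := S.intA
  intB := S.intB
  loc := h.loc

end Deliver

/-- **Route R**: `Concl S d` with `d = ((q+1)(q-1))²`. -/
theorem concl_of_deliver (S : Setup A M q) (h : Deliver S) :
    Top.Concl S ((q + 1) * (q - 1) * ((q + 1) * (q - 1))) := by
  intro n hn hqn f hf hord
  have hqn' : ¬ q ∣ n := fun h' =>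
    S.hq.one_lt.ne' (Nat.eq_one_of_dvd_coprimes hqn h' dvd_rfl)
  obtain ⟨ζ, hζ⟩ := exists_primitiveRoot_O0 A S.hq S.hA hqn'
  have hζ' : IsPrimitiveRoot (algebraMap (O0 A) S.F ζ) n := by
    refine hζ.map_of_injective (f := algebraMap (O0 A) S.F) fun x y hxy => ?_
    exact Subtype.ext ((algebraMap (K0 A) S.F).injective hxy)
  have : IsNoetherianRing (O0 A) := by
    have := K0L.isDiscreteValuationRing_OI A S.hq S.hA
    infer_instance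
  obtain ⟨a, Ψ, ha, hΨ, e⟩ := hf.main S.hq hqn hn (isUnit_natCast_O0 A S.hq S.hA hqn') h.good
    (jF_ne_zero (K0 A) (M * q * q)) h.chart₀ h.chart₁ h.triple h.p₀ h.p₁
    (fun z hz => shift_j hz) (fun z hz => shift_j_inv hz)
    (fun z h0 h1 => exists_const_of_mem_RR_inter (algebraMap (K0 A) Kbar) h0 h1)
    (exists_q_pow_mul_mem A S.hq S.hA) hζ' hord
  exact ⟨Ψ, a, hΨ, ha, e⟩

end Fermat.Agent.S36R
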